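/-
CELL-M2 / GATE-Z (Mazur block, S15) / TOP, layer 0 (helper20, graph-keeper; board 5685).

`s15_of_nodes` : the frozen statement S15 (Mazur's key step) from the node statements of GRAPH v1,
all in HYPOTHESIS FORM.  `p` is the prime level, `J = JZero p`, `∞ = cuspInf p` the `q`-place
(`GR/W/RatRep`), `P₀` the other cusp, `c = [(P₀) − (∞)]`.

* `CuspPkg p`  : (UNIT, divisor half) the second cusp `P₀`, Galois-fixed; `(p−1) • c = 0`;
                 `T_q c = (q+1) • c` for the primes `q ≠ p` (helper65 U0–U3).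
* `HRed p`     : (HRED) Hecke operators preserve the kernel of `reductionModL A p` at primes
                 `≠ q, p`.
* `RedAll p`   : (AUX23 + levelPackage) reduction inputs at level `p` at EVERY prime `ℓ' ≠ p`
                 (including `2` and `3`).
* `Moduli`     : (MOD) the rational place `x` of `(W, ⟨Q⟩)` and its reduction at the multiplicative
                 primes (helper80 (O1)(O2)).
* `Cut`        : (CUT) a rational point of order `p` in the zero component at `ℓ ≠ p` forces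
                 `p ∣ ℓ − 1 ∨ p ∣ ℓ + 1` (helper36).
* `FStmt p C S`: (F) the Eisenstein descent: a prime `r ∣ ord c` and `t` in the algebra generated
                 by the `T_q`, `q ∉ S`, with `t c = e • c`, `r ∤ e`, `t • J(ℚ)` torsion.

Proof (helper7 4853 / helper36 4917, re-derived): assume `Q` in the zero component at `A ∣ ℓ`.
`y := [(x) − (P₀)]` is rational; `t y` is torsion and dies at `2` and `3`, so `t y = 0` by S18
(on main) twice; at `ℓ`: `red (y + c) = 0`, hence `red (e • c) = 0`, `ℓ ∤ p − 1` by the cut, so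
`e • c = 0` by S18 at `ℓ`, i.e. `ord c ∣ e`, contradicting `r ∤ e`.
-/
import Fermat.Prelude.Def_EllipticCurve_ZeroComponentAt
import Fermat.Prelude.Def_FLTPrelim_Ramification
import Fermat.Prelude.Def_ModularCurve_ReductionModL
import Fermat.Prelude.Def_ModularCurve_HeckeModule
import Fermat.Agent.S18
import Fermat.Agent.GR.W.RatRep
import Fermat.Agent.Common_helper32.FrobeniusExists

set_option autoImplicit false

noncomputable section

open AlgebraicCurve ModularCurve WeierstrassCurve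
open scoped WeierstrassCurve.Affine

namespace Fermat.Agent.GZ.Top

open Fermat.Agent.GR.W.RatRep

local notation "Qb" => AlgebraicClosure ℚ
local notation "GQ" => (AlgebraicClosure ℚ ≃ₐ[ℚ] AlgebraicClosure ℚ)

/-- the function field `ℚ̄(X₀(N))` -/
local notation "FN" => modularFunctionFieldBar

section Defs

variable (p : ℕ) [NeZero p]

/-- the degree-zero divisor `(P) − (P')` of two places of `X₀(p)` (all places have degree one) -/
def diffDiv (P P' : Place Qb ↥(FN p)) : Divisor.degZero (K := Qb) (F := ↥(FN p)) :=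
  ⟨Finsupp.single P 1 - Finsupp.single P' 1, by
    rw [Divisor.mem_degZero, map_sub, Divisor.degree_single, Divisor.degree_single,
      Fermat.Agent.RR.ModularBar.deg_eq_one p P, Fermat.Agent.RR.ModularBar.deg_eq_one p P']
    ring⟩

/-- the class `[(P) − (P')]` in `J₀(p)` -/
def diffCl (P P' : Place Qb ↥(FN p)) : JZero p := Pic0.mk (diffDiv p P P')

/-- **(UNIT), divisor half**: the second cusp and the cuspidal class. -/
structure CuspPkg where
  /-- the cusp `0` -/
  zero : Place Qb ↥(FN p)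
  zero_fixed : ∀ σ : GQ, arithmeticGalois (modularFunctionFieldFull p) σ • zero = zero
  /-- `(p − 1) • c = 0` for `c = [(0) − (∞)]` -/
  tors : (p - 1) • diffCl p zero (cuspInf p) = 0
  /-- `T_q c = (q + 1) • c` -/
  hecke : ∀ q : Nat.Primes, (q : ℕ) ≠ p →
    heckeOperatorBar p q (diffCl p zero (cuspInf p)) = ((q : ℕ) + 1) • diffCl p zero (cuspInf p)

variable {p}

/-- the cuspidal class `c = [(0) − (∞)]` -/
def CuspPkg.c (C : CuspPkg p) : JZero p := diffCl p C.zero (cuspInf p)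

variable (p)

/-- the generators `T_q`, `q ∉ S`, `q ≠ p` -/
def heckeGens (S : Finset ℕ) : Set (Module.End ℤ (JZero p)) :=
  {T | ∃ q : Nat.Primes, (q : ℕ) ∉ S ∧ (q : ℕ) ≠ p ∧ T = heckeOperatorBar p q}

/-- **(HRED)**: the Hecke operators `T_q` preserve the kernel of reduction at `ℓ' ∉ {q, p}`. -/
def HRed : Prop :=
  ∀ (ℓ' : ℕ), ℓ'.Prime → ℓ' ≠ p → ∀ A : ValuationSubring Qb, A.LiesOverPrime ℓ' →
    ReductionInputsModL A p → ∀ q : Nat.Primes, (q : ℕ) ≠ ℓ' → (q : ℕ) ≠ p →
      ∀ z : JZero p, reductionModL A p z = 0 → reductionModL A p (heckeOperatorBar p q z) = 0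

/-- **(AUX23 + levelPackage)**: reduction inputs at level `p` at every prime `ℓ' ≠ p`. -/
def RedAll : Prop :=
  ∀ (ℓ' : ℕ), ℓ'.Prime → ℓ' ≠ p → ∀ A : ValuationSubring Qb, A.LiesOverPrime ℓ' →
    ReductionInputsModL A p

variable {p}

/-- **(F)**, the Eisenstein descent at level `p` away from the finite set `S` of primes. -/
def FStmt (C : CuspPkg p) (S : Finset ℕ) : Prop :=
  ∃ r : ℕ, r.Prime ∧ r ∣ addOrderOf C.c ∧
    ∃ t ∈ Algebra.adjoin ℤ (heckeGens p S), ∃ e : ℤ, t C.c = e • C.c ∧ ¬ (r : ℤ) ∣ e ∧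
      ∀ z : JZero p, (∀ σ : GQ, σ • z = z) → IsOfFinAddOrder (t z)

/-- **(MOD)**: the rational place of `X₀(p)` attached to `(W, ⟨Q⟩)` and its reductions. -/
def Moduli (C : CuspPkg p) (W : WeierstrassCurve ℤ)
    (Q : ((W.map (Int.castRingHom ℚ))⁄(AlgebraicClosure ℚ)).Point) : Prop :=
  ∃ x : Place Qb ↥(FN p),
    (∀ σ : GQ, arithmeticGalois (modularFunctionFieldFull p) σ • x = x) ∧
    ∀ (ℓ' : ℕ), ℓ'.Prime → ℓ' ≠ p → (ℓ' : ℤ) ∣ W.Δ → ¬ (ℓ' : ℤ) ∣ W.c₄ →
      ∀ (A : ValuationSubring Qb), A.LiesOverPrime ℓ' → ∀ h : ReductionInputsModL A p,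
        (W.InZeroComponentAt A Q → placeReductionModL h x = placeReductionModL h (cuspInf p)) ∧
        (¬ W.InZeroComponentAt A Q → placeReductionModL h x = placeReductionModL h C.zero)

/-- **(CUT)**: a point of order `p` in the zero component at a multiplicative `ℓ ≠ p`. -/
def Cut (p : ℕ) (W : WeierstrassCurve ℤ)
    (Q : ((W.map (Int.castRingHom ℚ))⁄(AlgebraicClosure ℚ)).Point) : Prop :=
  ∀ (ℓ : ℕ), ℓ.Prime → ℓ ≠ p → (ℓ : ℤ) ∣ W.Δ → ¬ (ℓ : ℤ) ∣ W.c₄ →
    ∀ A : ValuationSubring Qb, A.LiesOverPrime ℓ → W.InZeroComponentAt A Q →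
      p ∣ ℓ - 1 ∨ p ∣ ℓ + 1

end Defs

section Lemmas

variable {p : ℕ} [NeZero p]

theorem diffCl_add (P P' P'' : Place Qb ↥(FN p)) :
    diffCl p P P' + diffCl p P' P'' = diffCl p P P'' := by
  unfold diffCl
  rw [← Pic0.mk_add]
  congr 1
  apply Subtype.ext
  show (Finsupp.single P 1 - Finsupp.single P' 1 : Divisor Qb ↥(FN p))
    + (Finsupp.single P' 1 - Finsupp.single P'' 1) = Finsupp.single P 1 - Finsupp.single P'' 1
  abel

/-- the class of two Galois-fixed places is Galois-fixed -/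
theorem smul_diffCl (σ : GQ) {P P' : Place Qb ↥(FN p)}
    (hP : arithmeticGalois (modularFunctionFieldFull p) σ • P = P)
    (hP' : arithmeticGalois (modularFunctionFieldFull p) σ • P' = P') :
    σ • diffCl p P P' = diffCl p P P' := by
  unfold diffCl
  rw [galois_smul_pic0_def, smul_mk]
  congr 1
  apply Subtype.ext
  show arithmeticGalois (modularFunctionFieldFull p) σ •
    (Finsupp.single P 1 - Finsupp.single P' 1 : Divisor Qb ↥(FN p)) = _
  rw [smul_sub, SemilinearAut.smul_single, SemilinearAut.smul_single, hP, hP']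
  rfl

/-- two places with the same reduction: the class of their difference reduces to zero -/
theorem red_diffCl_eq_zero {A : ValuationSubring Qb} (h : ReductionInputsModL A p)
    {P P' : Place Qb ↥(FN p)} (hPP' : placeReductionModL h P = placeReductionModL h P') :
    reductionModL A p (diffCl p P P') = 0 := by
  unfold diffCl
  rw [reductionModL_mk h]
  have : reductionDegZeroAlong (placeReductionModL h)
      (isPlaceReductionModL_placeReductionModL h).1 (diffDiv p P P') = 0 := by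
    apply Subtype.ext
    rw [coe_reductionDegZeroAlong]
    show Finsupp.mapDomain (placeReductionModL h)
      (Finsupp.single P 1 - Finsupp.single P' 1 : Divisor Qb ↥(FN p)) = 0
    rw [← Finsupp.mapDomain.addMonoidHom_apply, map_sub, Finsupp.mapDomain.addMonoidHom_apply,
      Finsupp.mapDomain.addMonoidHom_apply, Finsupp.mapDomain_single, Finsupp.mapDomain_single,
      hPP', sub_self]
  rw [this, Pic0.mk_zero]

/-- elements of the Hecke algebra away from `S ∋ ℓ'` preserve the kernel of reduction at `ℓ'` -/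
theorem red_adjoin_eq_zero (hH : HRed p) {ℓ' : ℕ} (hℓ' : ℓ'.Prime) (hℓ'p : ℓ' ≠ p)
    {A : ValuationSubring Qb} (hA : A.LiesOverPrime ℓ') (h : ReductionInputsModL A p)
    {S : Finset ℕ} (hS : ℓ' ∈ S) {t : Module.End ℤ (JZero p)}
    (ht : t ∈ Algebra.adjoin ℤ (heckeGens p S)) :
    ∀ z : JZero p, reductionModL A p z = 0 → reductionModL A p (t z) = 0 := by
  induction ht using Algebra.adjoin_induction with
  | mem T hT =>
    obtain ⟨q, hqS, hqp, rfl⟩ := hT
    intro z hz
    exact hH ℓ' hℓ' hℓ'p A hA h q (fun hq => hqS (hq ▸ hS)) hqp z hz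
  | algebraMap n =>
    intro z hz
    rw [Algebra.algebraMap_eq_smul_one, LinearMap.smul_apply, Module.End.one_apply, map_zsmul, hz,
      smul_zero]
  | add T T' _ _ hT hT' =>
    intro z hz
    rw [LinearMap.add_apply, map_add, hT z hz, hT' z hz, add_zero]
  | mul T T' _ _ hT hT' =>
    intro z hz
    rw [Module.End.mul_apply]
    exact hT _ (hT' z hz)

end Lemmas

/-- **Frozen S15 from the nodes of GRAPH v1** (statement verbatim from `Templates/S15`). -/
theorem s15_of_nodes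
    {p : ℕ} (hp : p.Prime) (hp' : p ∉ ({2, 3, 5, 7, 13} : Finset ℕ))
    (W : WeierstrassCurve ℤ) (hΔ : W.Δ ≠ 0)
    (Q : ((W.map (Int.castRingHom ℚ))⁄(AlgebraicClosure ℚ)).Point)
    (hQfix : ∀ σ : AlgebraicClosure ℚ ≃ₐ[ℚ] AlgebraicClosure ℚ, σ • Q = Q)
    (hQord : addOrderOf Q = p)
    (h2Δ : (2 : ℤ) ∣ W.Δ) (h2c₄ : ¬ (2 : ℤ) ∣ W.c₄)
    (h2 : ∀ A : ValuationSubring (AlgebraicClosure ℚ), A.LiesOverPrime 2 → ¬ W.InZeroComponentAt A Q)
    (h3Δ : (3 : ℤ) ∣ W.Δ) (h3c₄ : ¬ (3 : ℤ) ∣ W.c₄)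
    (h3 : ∀ A : ValuationSubring (AlgebraicClosure ℚ), A.LiesOverPrime 3 → ¬ W.InZeroComponentAt A Q)
    {ℓ : ℕ} (hℓ : ℓ.Prime) (hℓp : ℓ ≠ p) (hℓΔ : (ℓ : ℤ) ∣ W.Δ) (hℓc₄ : ¬ (ℓ : ℤ) ∣ W.c₄)
    (A : ValuationSubring (AlgebraicClosure ℚ)) (hA : A.LiesOverPrime ℓ)
    -- the nodes
    (hpNZ : NeZero p)
    (C : CuspPkg p) (hH : HRed p) (hR : RedAll p)
    (hMod : Moduli C W Q) (hCut : Cut p W Q)
    (hF : FStmt C ({2, 3, ℓ} : Finset ℕ)) :
    ¬ W.InZeroComponentAt A Q := by
  intro hin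
  have hp5 : 5 ≤ p := by
    have h2 := hp.two_le
    simp only [Finset.mem_insert, Finset.mem_singleton, not_or] at hp'
    obtain ⟨n2, n3, -, -, -⟩ := hp'
    by_contra hlt
    have : p = 4 := by omega
    rw [this] at hp
    exact absurd hp (by decide)
  have hp2 : p ≠ 2 := by omega
  have hp3 : p ≠ 3 := by omega
  obtain ⟨A₂, hA₂⟩ := Fermat.Agent.Common_helper32.exists_liesOverPrime 2 Nat.prime_two
  obtain ⟨A₃, hA₃⟩ := Fermat.Agent.Common_helper32.exists_liesOverPrime 3 Nat.prime_three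
  obtain ⟨x, hxfix, hx⟩ := hMod
  obtain ⟨r, hr, hrc, t, ht, e, hte, hre, htors⟩ := hF
  -- the rational class `y = [(x) − (0)]`
  set y : JZero p := diffCl p x C.zero with hy
  have hyfix : ∀ σ : GQ, σ • y = y := fun σ => smul_diffCl σ (hxfix σ) (C.zero_fixed σ)
  -- `y` dies at 2 and 3
  have red2 := hR 2 Nat.prime_two (Ne.symm hp2) A₂ hA₂
  have red3 := hR 3 Nat.prime_three (Ne.symm hp3) A₃ hA₃
  have hy2 : reductionModL A₂ p y = 0 :=
    red_diffCl_eq_zero red2
      ((hx 2 Nat.prime_two (Ne.symm hp2) h2Δ h2c₄ A₂ hA₂ red2).2 (h2 A₂ hA₂))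
  have hy3 : reductionModL A₃ p y = 0 :=
    red_diffCl_eq_zero red3
      ((hx 3 Nat.prime_three (Ne.symm hp3) h3Δ h3c₄ A₃ hA₃ red3).2 (h3 A₃ hA₃))
  have hty2 : reductionModL A₂ p (t y) = 0 :=
    red_adjoin_eq_zero hH Nat.prime_two (Ne.symm hp2) hA₂ red2 (by simp) ht y hy2
  have hty3 : reductionModL A₃ p (t y) = 0 :=
    red_adjoin_eq_zero hH Nat.prime_three (Ne.symm hp3) hA₃ red3 (by simp) ht y hy3
  -- `t y` is torsion, hence zero by S18 at 2 and at 3
  have hty : t y = 0 := by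
    obtain ⟨n, hn, hny⟩ := isOfFinAddOrder_iff_nsmul_eq_zero.mp (htors y hyfix)
    obtain ⟨a, m, hm, rfl⟩ := Nat.exists_eq_two_pow_mul_odd hn.ne'
    have : Fact (Nat.Prime 2) := ⟨Nat.prime_two⟩
    have : Fact (Nat.Prime 3) := ⟨Nat.prime_three⟩
    have h2p : ¬ 2 ∣ p := fun h => hp2 ((Nat.prime_dvd_prime_iff_eq Nat.prime_two hp).mp h).symm
    have h3p : ¬ 3 ∣ p := fun h => hp3 ((Nat.prime_dvd_prime_iff_eq Nat.prime_three hp).mp h).symm
    -- the odd part dies at 2
    have h1 : (2 ^ a) • t y = 0 := by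
      refine Fermat.Agent.S18.result p h2p A₂ hA₂ red2 m
        (fun h => (Nat.not_even_iff_odd.mpr hm) (even_iff_two_dvd.mpr h)) _ ?_ ?_
      · rw [← mul_smul, mul_comm]; exact hny
      · rw [map_nsmul, hty2, smul_zero]
    -- the 2-part dies at 3
    refine Fermat.Agent.S18.result p h3p A₃ hA₃ red3 (2 ^ a) ?_ _ h1 hty3
    intro h
    have := (Nat.Prime.dvd_of_dvd_pow Nat.prime_three h)
    omega
  -- at `ℓ`: `x` reduces to `∞`
  have redℓ := hR ℓ hℓ hℓp A hA
  have hxinf := (hx ℓ hℓ hℓp hℓΔ hℓc₄ A hA redℓ).1 hin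
  have hyc : reductionModL A p (y + C.c) = 0 := by
    rw [hy, CuspPkg.c, diffCl_add]
    exact red_diffCl_eq_zero redℓ hxinf
  have htyc : reductionModL A p (t (y + C.c)) = 0 :=
    red_adjoin_eq_zero hH hℓ hℓp hA redℓ (by simp) ht _ hyc
  rw [map_add, hty, zero_add, hte] at htyc
  -- `ℓ ∤ p − 1`
  have hℓp1 : ¬ ℓ ∣ p - 1 := by
    intro hdvd
    have hle : ℓ ≤ p - 1 := Nat.le_of_dvd (by omega) hdvd
    have hℓ2 := hℓ.two_le
    rcases hCut ℓ hℓ hℓp hℓΔ hℓc₄ A hA hin with h | h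
    · have := Nat.le_of_dvd (by omega) h
      omega
    · have := Nat.le_of_dvd (by omega) h
      have hℓeq : ℓ = p - 1 := by omega
      -- `p - 1` and `p` both prime, `p ≥ 5`: impossible
      rcases Nat.Prime.eq_one_or_self_of_dvd hℓ 2 (by
        rw [hℓeq]
        have := hp.eq_one_or_self_of_dvd 2
        rcases Nat.even_or_odd p with he | ho
        · exact absurd ((Nat.prime_dvd_prime_iff_eq Nat.prime_two hp).mp
            (even_iff_two_dvd.mp he)).symm hp2
        · obtain ⟨k, hk⟩ := ho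
          exact ⟨k, by omega⟩) with h1 | h1
      · omega
      · omega
  -- S18 at `ℓ`
  have : Fact ℓ.Prime := ⟨hℓ⟩
  have hℓp' : ¬ ℓ ∣ p := fun h => hℓp ((Nat.prime_dvd_prime_iff_eq hℓ hp).mp h)
  have hec : e • C.c = 0 := by
    refine Fermat.Agent.S18.result p hℓp' A hA redℓ (p - 1) hℓp1 _ ?_ htyc
    rw [smul_comm]
    show e • ((p - 1) • C.c) = 0
    rw [CuspPkg.c, C.tors, smul_zero]
  -- contradiction
  have : (addOrderOf C.c : ℤ) ∣ e := (addOrderOf_dvd_iff_zsmul_eq_zero).mpr hec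
  exact hre (dvd_trans (Int.natCast_dvd_natCast.mpr hrc) this)

end Fermat.Agent.GZ.Top
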