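/-
GATE-Z (Mazur key step, S15) / TOP, variant B (helper20; board 5806 R2).

Same reduction as `GZ/Top/S15Top.lean`, but the primes `2` and `3` are treated at the AUXILIARY
LEVELS `3p` resp. `2p`, where the reduction frame exists on main (`levelPackage`: `ℓ = 2 → 3 ∣ N`,
`ℓ = 3 → 2 ∣ N`), through the pull-back `pullBar : J₀(p) → J₀(3p)`, `J₀(2p)`
(`GJ/S37/HeckePullback`, `pullPackage`: the kernel is killed by the relative degree).

* `HRedGood`  : (HRED) at every good level `N` (helper42's form (2)).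
* `ModuliB`   : (MOD) — at the multiplicative primes `ℓ' ≥ 5` as in variant A (level `p`); at `2`
                and `3`: the pull-back of `y = [(x) − (0)]` to level `3p` / `2p` reduces to zero.
* `s15_of_nodes_B` : frozen S15 from `CuspPkg`, `HRedGood`, `ModuliB`, `Cut`, `FStmt` and the two
                relative degrees `[F_{3p} : F_p] = 4`, `[F_{2p} : F_p] = 3`.
-/
import Fermat.Agent.GZ.Top.S15Top
import Fermat.Agent.GJ.S37.LSpaceGateProof
import Fermat.Agent.GJ.S37.PullPackageInst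

set_option autoImplicit false

noncomputable section

open AlgebraicCurve ModularCurve WeierstrassCurve IntermediateField
open scoped WeierstrassCurve.Affine

namespace Fermat.Agent.GZ.Top

open Fermat.Agent.GR.W.RatRep Fermat.Agent.GJ.S37HeckePullback

local notation "Qb" => AlgebraicClosure ℚ
local notation "GQ" => (AlgebraicClosure ℚ ≃ₐ[ℚ] AlgebraicClosure ℚ)
local notation "FN" => modularFunctionFieldBar

/-- **(HRED) at good levels**: `T_q` (`q ∤ N`) preserves the kernel of reduction at `ℓ' ∤ N`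
(`3 ∣ N` if `ℓ' = 2`, `2 ∣ N` if `ℓ' = 3`). -/
def HRedGood : Prop :=
  ∀ (N : ℕ) [NeZero N] (ℓ' : ℕ), ℓ'.Prime → ¬ ℓ' ∣ N → (ℓ' = 2 → 3 ∣ N) → (ℓ' = 3 → 2 ∣ N) →
    ∀ A : ValuationSubring Qb, A.LiesOverPrime ℓ' → ReductionInputsModL A N →
      ∀ q : Nat.Primes, ¬ (q : ℕ) ∣ N → (q : ℕ) ≠ ℓ' →
        ∀ z : JZero N, reductionModL A N z = 0 → reductionModL A N (heckeOperatorBar N q z) = 0

section

variable {p : ℕ} [NeZero p]

instance neZero_three_mul : NeZero (3 * p) := ⟨mul_ne_zero (by norm_num) (NeZero.ne p)⟩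
instance neZero_two_mul : NeZero (2 * p) := ⟨mul_ne_zero (by norm_num) (NeZero.ne p)⟩

/-- **(MOD), variant B.** -/
def ModuliB (C : CuspPkg p) (W : WeierstrassCurve ℤ)
    (Q : ((W.map (Int.castRingHom ℚ))⁄(AlgebraicClosure ℚ)).Point) : Prop :=
  ∃ x : Place Qb ↥(FN p),
    (∀ σ : GQ, arithmeticGalois (modularFunctionFieldFull p) σ • x = x) ∧
    (∀ (ℓ' : ℕ), ℓ'.Prime → ℓ' ≠ p → 5 ≤ ℓ' → (ℓ' : ℤ) ∣ W.Δ → ¬ (ℓ' : ℤ) ∣ W.c₄ →
      ∀ (A : ValuationSubring Qb), A.LiesOverPrime ℓ' → ∀ h : ReductionInputsModL A p,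
        W.InZeroComponentAt A Q → placeReductionModL h x = placeReductionModL h (cuspInf p)) ∧
    (∀ A : ValuationSubring Qb, A.LiesOverPrime 2 → ReductionInputsModL A (3 * p) →
      ¬ W.InZeroComponentAt A Q →
        reductionModL A (3 * p) (pullBar (Dvd.intro_left 3 rfl) (diffCl p x C.zero)) = 0) ∧
    (∀ A : ValuationSubring Qb, A.LiesOverPrime 3 → ReductionInputsModL A (2 * p) →
      ¬ W.InZeroComponentAt A Q →
        reductionModL A (2 * p) (pullBar (Dvd.intro_left 2 rfl) (diffCl p x C.zero)) = 0)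

/-- elements of the Hecke algebra away from `S` preserve the kernel of reduction as soon as the
generators do -/
theorem red_adjoin_eq_zero_of {A : ValuationSubring Qb} {S : Finset ℕ}
    (hgen : ∀ q : Nat.Primes, (q : ℕ) ∉ S → (q : ℕ) ≠ p → ∀ z : JZero p,
      reductionModL A p z = 0 → reductionModL A p (heckeOperatorBar p q z) = 0)
    {t : Module.End ℤ (JZero p)} (ht : t ∈ Algebra.adjoin ℤ (heckeGens p S)) :
    ∀ z : JZero p, reductionModL A p z = 0 → reductionModL A p (t z) = 0 := by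
  induction ht using Algebra.adjoin_induction with
  | mem T hT =>
    obtain ⟨q, hqS, hqp, rfl⟩ := hT
    exact hgen q hqS hqp
  | algebraMap n =>
    intro z hz
    rw [Algebra.algebraMap_eq_smul_one, LinearMap.smul_apply, Module.End.one_apply, map_zsmul, hz,
      smul_zero]
  | add T T' _ _ hT hT' =>
    intro z hz
    rw [LinearMap.add_apply, map_add, hT z hz, hT' z hz, add_zero]
  | mul T T' _ _ hT hT' =>
    intro z hz
    rw [Module.End.mul_apply]
    exact hT _ (hT' z hz)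

/-- elements of the Hecke algebra of level `p` away from `S` preserve the kernel of
`red ∘ pullBar` at a good auxiliary level `N' = d p`. -/
theorem red_pull_adjoin_eq_zero (hH : HRedGood) {N' : ℕ} [NeZero N'] (hpN' : p ∣ N')
    {ℓ' : ℕ} (hℓ' : ℓ'.Prime) (hℓ'N' : ¬ ℓ' ∣ N') (h2 : ℓ' = 2 → 3 ∣ N') (h3 : ℓ' = 3 → 2 ∣ N')
    {A : ValuationSubring Qb} (hA : A.LiesOverPrime ℓ') (h : ReductionInputsModL A N')
    {S : Finset ℕ} (hS : ∀ q : ℕ, q.Prime → q ∣ N' → q ≠ p → q ∈ S) (hℓ'S : ℓ' ∈ S)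
    {t : Module.End ℤ (JZero p)} (ht : t ∈ Algebra.adjoin ℤ (heckeGens p S)) :
    ∀ z : JZero p, reductionModL A N' (pullBar hpN' z) = 0 →
      reductionModL A N' (pullBar hpN' (t z)) = 0 := by
  induction ht using Algebra.adjoin_induction with
  | mem T hT =>
    obtain ⟨q, hqS, hqp, rfl⟩ := hT
    intro z hz
    have hqN' : ¬ (q : ℕ) ∣ N' := by
      intro hdvd
      -- `q ∣ N'`, `q` prime, `q ≠ p` ⟹ `q ∈ S`
      exact hqS (hS q q.2 hdvd hqp)
    have := pullBar_heckeOperatorBar hpN' (q : ℕ) q.2 hqN' z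
    rw [show (⟨(q : ℕ), q.2⟩ : Nat.Primes) = q from rfl] at this
    rw [this]
    exact hH N' ℓ' hℓ' hℓ'N' h2 h3 A hA h q hqN' (fun hq => hqS (hq ▸ hℓ'S)) _ hz
  | algebraMap n =>
    intro z hz
    rw [Algebra.algebraMap_eq_smul_one, LinearMap.smul_apply, Module.End.one_apply, map_zsmul,
      map_zsmul, hz, smul_zero]
  | add T T' _ _ hT hT' =>
    intro z hz
    rw [LinearMap.add_apply, map_add, map_add, hT z hz, hT' z hz, add_zero]
  | mul T T' _ _ hT hT' =>
    intro z hz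
    rw [Module.End.mul_apply]
    exact hT _ (hT' z hz)

end

/-- **Frozen S15 from the nodes, variant B** (primes `2`, `3` at the auxiliary levels `3p`, `2p`). -/
theorem s15_of_nodes_B
    {p : ℕ} (hp : p.Prime) (hp' : p ∉ ({2, 3, 5, 7, 13} : Finset ℕ))
    (W : WeierstrassCurve ℤ) (hΔ : W.Δ ≠ 0)
    (Q : ((W.map (Int.castRingHom ℚ))⁄(AlgebraicClosure ℚ)).Point)
    (hQfix : ∀ σ : AlgebraicClosure ℚ ≃ₐ[ℚ] AlgebraicClosure ℚ, σ • Q = Q)
    (hQord : addOrderOf Q = p)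
    (h2Δ : (2 : ℤ) ∣ W.Δ) (h2c₄ : ¬ (2 : ℤ) ∣ W.c₄)
    (h2 : ∀ A : ValuationSubring (AlgebraicClosure ℚ), A.LiesOverPrime 2 → ¬ W.InZeroComponentAt A Q)
    (h3Δ : (3 : ℤ) ∣ W.Δ) (h3c₄ : ¬ (3 : ℤ) ∣ W.c₄)
    (h3 : ∀ A : ValuationSubring (AlgebraicClosure ℚ), A.LiesOverPrime 3 → ¬ W.InZeroComponentAt A Q)
    {ℓ : ℕ} (hℓ : ℓ.Prime) (hℓp : ℓ ≠ p) (hℓΔ : (ℓ : ℤ) ∣ W.Δ) (hℓc₄ : ¬ (ℓ : ℤ) ∣ W.c₄)
    (A : ValuationSubring (AlgebraicClosure ℚ)) (hA : A.LiesOverPrime ℓ)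
    -- the nodes
    (hpNZ : NeZero p)
    (C : CuspPkg p) (hH : HRedGood)
    (hMod : ModuliB C W Q) (hCut : Cut p W Q)
    (hF : FStmt C ({2, 3, ℓ} : Finset ℕ))
    (hdeg3 : relfinrank (FN p) (FN (3 * p)) = 4)
    (hdeg2 : relfinrank (FN p) (FN (2 * p)) = 3) :
    ¬ W.InZeroComponentAt A Q := by
  intro hin
  have hp5 : 11 ≤ p := by
    by_contra hlt
    have hlt' : p < 11 := by omega
    simp only [Finset.mem_insert, Finset.mem_singleton, not_or] at hp'
    interval_cases p <;> first | omega | exact absurd hp (by decide)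
  have hp2 : p ≠ 2 := by omega
  have hp3 : p ≠ 3 := by omega
  have h2p : ¬ 2 ∣ p := fun h => hp2 ((Nat.prime_dvd_prime_iff_eq Nat.prime_two hp).mp h).symm
  have h3p : ¬ 3 ∣ p := fun h => hp3 ((Nat.prime_dvd_prime_iff_eq Nat.prime_three hp).mp h).symm
  obtain ⟨A₂, hA₂⟩ := Fermat.Agent.Common_helper32.exists_liesOverPrime 2 Nat.prime_two
  obtain ⟨A₃, hA₃⟩ := Fermat.Agent.Common_helper32.exists_liesOverPrime 3 Nat.prime_three
  obtain ⟨x, hxfix, hx5, hx2, hx3⟩ := hMod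
  obtain ⟨r, hr, hrc, t, ht, e, hte, hre, htors⟩ := hF
  set y : JZero p := diffCl p x C.zero with hy
  have hyfix : ∀ σ : GQ, σ • y = y := fun σ => smul_diffCl σ (hxfix σ) (C.zero_fixed σ)
  -- the cut: `p ∣ ℓ ± 1`, hence `ℓ ≥ 5` and `ℓ ∤ p − 1`
  have hcut := hCut ℓ hℓ hℓp hℓΔ hℓc₄ A hA hin
  have hℓ2 := hℓ.two_le
  have hℓ5 : 5 ≤ ℓ := by
    rcases hcut with h | h
    · have := Nat.le_of_dvd (by omega) h
      omega
    · have := Nat.le_of_dvd (by omega) h
      omega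
  -- reduction inputs from `levelPackage`
  have h23 : ¬ 2 ∣ 3 * p := by
    intro h
    rcases (Nat.Prime.dvd_mul Nat.prime_two).mp h with h | h
    · omega
    · exact h2p h
  have h32 : ¬ 3 ∣ 2 * p := by
    intro h
    rcases (Nat.Prime.dvd_mul Nat.prime_three).mp h with h | h
    · omega
    · exact h3p h
  obtain ⟨red2, -⟩ := Fermat.Agent.GJ.S37LSpaceGate.levelPackage (3 * p) Nat.prime_two h23
    (fun _ => Dvd.intro _ rfl) (fun h => absurd h (by decide)) A₂ hA₂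
  obtain ⟨red3, -⟩ := Fermat.Agent.GJ.S37LSpaceGate.levelPackage (2 * p) Nat.prime_three h32
    (fun h => absurd h (by decide)) (fun _ => Dvd.intro _ rfl) A₃ hA₃
  have hℓp' : ¬ ℓ ∣ p := fun h => hℓp ((Nat.prime_dvd_prime_iff_eq hℓ hp).mp h)
  obtain ⟨redℓ, -⟩ := Fermat.Agent.GJ.S37LSpaceGate.levelPackage p hℓ hℓp'
    (fun h => by omega) (fun h => by omega) A hA
  -- `y` dies at `2` (level `3p`) and at `3` (level `2p`), hence so does `t y`
  have hy2 := hx2 A₂ hA₂ red2 (h2 A₂ hA₂)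
  have hy3 := hx3 A₃ hA₃ red3 (h3 A₃ hA₃)
  have hS3 : ∀ q : ℕ, q.Prime → q ∣ 3 * p → q ≠ p → q ∈ ({2, 3, ℓ} : Finset ℕ) := by
    intro q hq hdvd hqp
    rcases (Nat.Prime.dvd_mul hq).mp hdvd with h | h
    · have := (Nat.prime_dvd_prime_iff_eq hq Nat.prime_three).mp h
      simp [this]
    · exact absurd ((Nat.prime_dvd_prime_iff_eq hq hp).mp h) hqp
  have hS2 : ∀ q : ℕ, q.Prime → q ∣ 2 * p → q ≠ p → q ∈ ({2, 3, ℓ} : Finset ℕ) := by
    intro q hq hdvd hqp
    rcases (Nat.Prime.dvd_mul hq).mp hdvd with h | h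
    · have := (Nat.prime_dvd_prime_iff_eq hq Nat.prime_two).mp h
      simp [this]
    · exact absurd ((Nat.prime_dvd_prime_iff_eq hq hp).mp h) hqp
  have hty2 := red_pull_adjoin_eq_zero hH (Dvd.intro_left 3 rfl) Nat.prime_two h23
    (fun _ => Dvd.intro _ rfl) (fun h => absurd h (by decide)) hA₂ red2 hS3 (by simp) ht y hy2
  have hty3 := red_pull_adjoin_eq_zero hH (Dvd.intro_left 2 rfl) Nat.prime_three h32
    (fun h => absurd h (by decide)) (fun _ => Dvd.intro _ rfl) hA₃ red3 hS2 (by simp) ht y hy3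
  -- `t y` is torsion, hence zero
  have hty : t y = 0 := by
    obtain ⟨n, hn, hny⟩ := isOfFinAddOrder_iff_nsmul_eq_zero.mp (htors y hyfix)
    obtain ⟨a, m, hm, rfl⟩ := Nat.exists_eq_two_pow_mul_odd hn.ne'
    have : Fact (Nat.Prime 2) := ⟨Nat.prime_two⟩
    have : Fact (Nat.Prime 3) := ⟨Nat.prime_three⟩
    have hpull := Fermat.Agent.GJ.S37PullPackageInst.pullPackage
    -- the odd part dies at 2 (level 3p)
    have h1 : (2 ^ a) • t y = 0 := by
      have hmv : m • ((2 ^ a) • t y) = 0 := by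
        rw [← mul_smul, mul_comm m (2 ^ a)]; exact hny
      have hz : pullBar (Dvd.intro_left 3 rfl) ((2 ^ a) • t y) = 0 := by
        refine Fermat.Agent.S18.result (3 * p) h23 A₂ hA₂ red2 m
          (fun h => (Nat.not_even_iff_odd.mpr hm) (even_iff_two_dvd.mpr h)) _ ?_ ?_
        · rw [← map_nsmul, hmv, map_zero]
        · rw [map_nsmul, map_nsmul, hty2, smul_zero]
      have h4 := (hpull p (3 * p) (Dvd.intro_left 3 rfl)).2 _ hz
      rw [hdeg3] at h4
      -- `4 • v = 0` and `m • v = 0` with `m` odd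
      have hcop : Nat.Coprime 4 m := by
        have h2m : Nat.Coprime 2 m := (Nat.Prime.coprime_iff_not_dvd Nat.prime_two).mpr
            (fun h => (Nat.not_even_iff_odd.mpr hm) (even_iff_two_dvd.mpr h))
        exact (Nat.Coprime.pow_left 2 h2m : Nat.Coprime (2 ^ 2) m)
      have hord : addOrderOf ((2 ^ a) • t y) ∣ Nat.gcd 4 m :=
        Nat.dvd_gcd (addOrderOf_dvd_of_nsmul_eq_zero h4) (addOrderOf_dvd_of_nsmul_eq_zero hmv)
      rw [hcop] at hord
      exact AddMonoid.addOrderOf_eq_one_iff.mp (Nat.dvd_one.mp hord)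
    -- the 2-part dies at 3 (level 2p)
    have hz : pullBar (Dvd.intro_left 2 rfl) (t y) = 0 := by
      refine Fermat.Agent.S18.result (2 * p) h32 A₃ hA₃ red3 (2 ^ a) ?_ _ ?_ hty3
      · intro h
        have := (Nat.Prime.dvd_of_dvd_pow Nat.prime_three h)
        omega
      · rw [← map_nsmul, h1, map_zero]
    have h3' := (hpull p (2 * p) (Dvd.intro_left 2 rfl)).2 _ hz
    rw [hdeg2] at h3'
    have hcop : Nat.Coprime 3 (2 ^ a) := Nat.Coprime.pow_right a (by norm_num)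
    have hord : addOrderOf (t y) ∣ Nat.gcd 3 (2 ^ a) :=
      Nat.dvd_gcd (addOrderOf_dvd_of_nsmul_eq_zero h3') (addOrderOf_dvd_of_nsmul_eq_zero h1)
    rw [hcop] at hord
    exact AddMonoid.addOrderOf_eq_one_iff.mp (Nat.dvd_one.mp hord)
  -- at `ℓ`: `x` reduces to `∞`
  have hxinf := hx5 ℓ hℓ hℓp hℓ5 hℓΔ hℓc₄ A hA redℓ hin
  have hyc : reductionModL A p (y + C.c) = 0 := by
    rw [hy, CuspPkg.c, diffCl_add]
    exact red_diffCl_eq_zero redℓ hxinf
  -- (HRED) at level `p`, `ℓ ≥ 5`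
  have htyc : reductionModL A p (t (y + C.c)) = 0 := by
    refine red_adjoin_eq_zero_of (fun q hqS hqp z hz => ?_) ht _ hyc
    exact hH p ℓ hℓ hℓp' (fun h => by omega) (fun h => by omega) A hA redℓ q
      (fun h => hqp ((Nat.prime_dvd_prime_iff_eq q.2 hp).mp h))
      (fun hq => hqS (by simp [hq])) z hz
  rw [map_add, hty, zero_add, hte] at htyc
  -- `ℓ ∤ p − 1`
  have hℓp1 : ¬ ℓ ∣ p - 1 := by
    intro hdvd
    have hle : ℓ ≤ p - 1 := Nat.le_of_dvd (by omega) hdvd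
    rcases hcut with h | h
    · have := Nat.le_of_dvd (by omega) h
      omega
    · have := Nat.le_of_dvd (by omega) h
      have hℓeq : ℓ = p - 1 := by omega
      rcases Nat.Prime.eq_one_or_self_of_dvd hℓ 2 (by
        rw [hℓeq]
        rcases Nat.even_or_odd p with he | ho
        · exact absurd ((Nat.prime_dvd_prime_iff_eq Nat.prime_two hp).mp
            (even_iff_two_dvd.mp he)).symm hp2
        · obtain ⟨k, hk⟩ := ho
          exact ⟨k, by omega⟩) with h1 | h1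
      · omega
      · omega
  have : Fact ℓ.Prime := ⟨hℓ⟩
  have hec : e • C.c = 0 := by
    refine Fermat.Agent.S18.result p hℓp' A hA redℓ (p - 1) hℓp1 _ ?_ htyc
    rw [smul_comm]
    show e • ((p - 1) • C.c) = 0
    rw [CuspPkg.c, C.tors, smul_zero]
  have : (addOrderOf C.c : ℤ) ∣ e := (addOrderOf_dvd_iff_zsmul_eq_zero).mpr hec
  exact hre (dvd_trans (Int.natCast_dvd_natCast.mpr hrc) this)

end Fermat.Agent.GZ.Top
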