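/-
GATE-Z (Mazur key step, S15) / TOP ASSEMBLY, variant B (helper24).

Every node of GRAPH v1 except (F) is on main, binder-free:
(UNIT) `Unit.Hecke.cuspPkgFinal` (helper24/helper25) · (HRED) `HRed.hRedGood` (helper42) ·
(CUT) `Cut.dvd_pred_or_dvd_succ` (helper67) · (DEG) `Deg.relfinrank_three_two` (helper45) ·
[MOD-beta] `Tate.Out.betaOut_two` (helper91 + T0–T6 owners) · [MOD-alpha] level `p`
(`Integ.alphaEx`, `Integ.alphaRed`: helper80, helper48, helper16) · [MOD-alpha] levels `3p`, `2p`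
(`LevelDP.pullHyp_three`, `pullHyp_two`: helper16, helper48, helper80).

* **`s15_of_fStmt`** : the frozen statement S15 from `FStmt (cuspPkgFinal hp) {2, 3, ℓ}` ALONE;
* **`s15_of_hker`**  : the same from the Nakayama hypothesis `HKer p {2, 3, ℓ} r` at ONE prime
  `r ∣ ord c` (helper67 `HCommFinal.fStmt_of_hker`);
* `s15_of_hker_all`  : from `HKer` at every prime divisor `r` of `ord c` (such an `r` exists by
  helper63's U2: `1 < ord c`).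
-/
import Fermat.Agent.GZ.Mod.IntegratorPlugB
import Fermat.Agent.GZ.Mod.Inst.LevelDP.AuxFam
import Fermat.Agent.GZ.Tate.Out.Final
import Fermat.Agent.GZ.HRed.TopB
import Fermat.Agent.GZ.HCommFinal
import Fermat.Agent.GZ.Unit.U2Plug

set_option autoImplicit false
set_option linter.unusedSectionVars false
set_option synthInstance.maxHeartbeats 400000
set_option maxHeartbeats 1000000

noncomputable section

open AlgebraicCurve ModularCurve WeierstrassCurve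
open scoped WeierstrassCurve.Affine

namespace Fermat.Agent.GZ.Top.Final

open Fermat.Agent.GZ.Top Fermat.Agent.GZ.Unit Fermat.Agent.GZ.Mod.Integ Fermat.Agent.GR.W.RatRep

/-- `p ∉ {2, 3, 5, 7, 13}` prime ⟹ `11 ≤ p` -/
theorem eleven_le {p : ℕ} (hp : p.Prime) (hp' : p ∉ ({2, 3, 5, 7, 13} : Finset ℕ)) : 11 ≤ p := by
  by_contra hlt
  have hlt' : p < 11 := by omega
  simp only [Finset.mem_insert, Finset.mem_singleton, not_or] at hp'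
  interval_cases p <;> first | omega | exact absurd hp (by decide)

/-- **Frozen S15 from (F) alone** (variant B; statement verbatim from `Templates/S15` + `hF`). -/
theorem s15_of_fStmt
    {p : ℕ} (hp : p.Prime) (hp' : p ∉ ({2, 3, 5, 7, 13} : Finset ℕ))
    (W : WeierstrassCurve ℤ) (hΔ : W.Δ ≠ 0)
    (Q : ((W.map (Int.castRingHom ℚ))⁄(AlgebraicClosure ℚ)).Point)
    (hQfix : ∀ σ : AlgebraicClosure ℚ ≃ₐ[ℚ] AlgebraicClosure ℚ, σ • Q = Q)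
    (hQord : addOrderOf Q = p)
    (h2Δ : (2 : ℤ) ∣ W.Δ) (h2c₄ : ¬ (2 : ℤ) ∣ W.c₄)
    (h2 : ∀ A : ValuationSubring (AlgebraicClosure ℚ), A.LiesOverPrime 2 → ¬ W.InZeroComponentAt A Q)
    (h3Δ : (3 : ℤ) ∣ W.Δ) (h3c₄ : ¬ (3 : ℤ) ∣ W.c₄)
    (h3 : ∀ A : ValuationSubring (AlgebraicClosure ℚ), A.LiesOverPrime 3 → ¬ W.InZeroComponentAt A Q)
    {ℓ : ℕ} (hℓ : ℓ.Prime) (hℓp : ℓ ≠ p) (hℓΔ : (ℓ : ℤ) ∣ W.Δ) (hℓc₄ : ¬ (ℓ : ℤ) ∣ W.c₄)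
    (A : ValuationSubring (AlgebraicClosure ℚ)) (hA : A.LiesOverPrime ℓ)
    (hpNZ : NeZero p)
    (hF : FStmt (Fermat.Agent.GZ.Unit.Hecke.cuspPkgFinal hp) ({2, 3, ℓ} : Finset ℕ)) :
    ¬ W.InZeroComponentAt A Q := by
  have hp11 := eleven_le hp hp'
  have hp2 : p ≠ 2 := by omega
  exact s15B_of_beta hp hp' W hΔ Q hQfix hQord h2Δ h2c₄ h2 h3Δ h3c₄ h3 hℓ hℓp hℓΔ hℓc₄ A hA hpNZ
    (Fermat.Agent.GZ.Tate.Out.betaOut_two hp hp2 W hΔ Q hQfix hQord h2Δ h2c₄)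
    (Fermat.Agent.GZ.Mod.Inst.LevelDP.pullHyp_three hp (by omega))
    (Fermat.Agent.GZ.Mod.Inst.LevelDP.pullHyp_two hp (by omega))
    Fermat.Agent.GZ.HRed.hRedGood hF

/-- **Frozen S15 from the Nakayama hypothesis at one prime `r ∣ ord c`.** -/
theorem s15_of_hker
    {p : ℕ} (hp : p.Prime) (hp' : p ∉ ({2, 3, 5, 7, 13} : Finset ℕ))
    (W : WeierstrassCurve ℤ) (hΔ : W.Δ ≠ 0)
    (Q : ((W.map (Int.castRingHom ℚ))⁄(AlgebraicClosure ℚ)).Point)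
    (hQfix : ∀ σ : AlgebraicClosure ℚ ≃ₐ[ℚ] AlgebraicClosure ℚ, σ • Q = Q)
    (hQord : addOrderOf Q = p)
    (h2Δ : (2 : ℤ) ∣ W.Δ) (h2c₄ : ¬ (2 : ℤ) ∣ W.c₄)
    (h2 : ∀ A : ValuationSubring (AlgebraicClosure ℚ), A.LiesOverPrime 2 → ¬ W.InZeroComponentAt A Q)
    (h3Δ : (3 : ℤ) ∣ W.Δ) (h3c₄ : ¬ (3 : ℤ) ∣ W.c₄)
    (h3 : ∀ A : ValuationSubring (AlgebraicClosure ℚ), A.LiesOverPrime 3 → ¬ W.InZeroComponentAt A Q)
    {ℓ : ℕ} (hℓ : ℓ.Prime) (hℓp : ℓ ≠ p) (hℓΔ : (ℓ : ℤ) ∣ W.Δ) (hℓc₄ : ¬ (ℓ : ℤ) ∣ W.c₄)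
    (A : ValuationSubring (AlgebraicClosure ℚ)) (hA : A.LiesOverPrime ℓ)
    (hpNZ : NeZero p)
    (r : ℕ) (hr : r.Prime)
    (hrc : r ∣ addOrderOf (Fermat.Agent.GZ.Unit.Hecke.cuspPkgFinal hp).c)
    (hker : Fermat.Agent.GZ.HCommTop.HKer p ({2, 3, ℓ} : Finset ℕ) r) :
    ¬ W.InZeroComponentAt A Q := by
  have hp11 := eleven_le hp hp'
  exact s15_of_fStmt hp hp' W hΔ Q hQfix hQord h2Δ h2c₄ h2 h3Δ h3c₄ h3 hℓ hℓp hℓΔ hℓc₄ A hA hpNZ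
    (Fermat.Agent.GZ.HCommFinal.fStmt_of_hker p hp (by omega) _ _ r hr hrc hker)

/-- **Frozen S15 from the Nakayama hypothesis at every prime divisor of `ord c`.** -/
theorem s15_of_hker_all
    {p : ℕ} (hp : p.Prime) (hp' : p ∉ ({2, 3, 5, 7, 13} : Finset ℕ))
    (W : WeierstrassCurve ℤ) (hΔ : W.Δ ≠ 0)
    (Q : ((W.map (Int.castRingHom ℚ))⁄(AlgebraicClosure ℚ)).Point)
    (hQfix : ∀ σ : AlgebraicClosure ℚ ≃ₐ[ℚ] AlgebraicClosure ℚ, σ • Q = Q)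
    (hQord : addOrderOf Q = p)
    (h2Δ : (2 : ℤ) ∣ W.Δ) (h2c₄ : ¬ (2 : ℤ) ∣ W.c₄)
    (h2 : ∀ A : ValuationSubring (AlgebraicClosure ℚ), A.LiesOverPrime 2 → ¬ W.InZeroComponentAt A Q)
    (h3Δ : (3 : ℤ) ∣ W.Δ) (h3c₄ : ¬ (3 : ℤ) ∣ W.c₄)
    (h3 : ∀ A : ValuationSubring (AlgebraicClosure ℚ), A.LiesOverPrime 3 → ¬ W.InZeroComponentAt A Q)
    {ℓ : ℕ} (hℓ : ℓ.Prime) (hℓp : ℓ ≠ p) (hℓΔ : (ℓ : ℤ) ∣ W.Δ) (hℓc₄ : ¬ (ℓ : ℤ) ∣ W.c₄)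
    (A : ValuationSubring (AlgebraicClosure ℚ)) (hA : A.LiesOverPrime ℓ)
    (hpNZ : NeZero p)
    (hker : ∀ r : ℕ, r.Prime → r ∣ addOrderOf (diffCl p (cuspZero hp) (cuspInf p)) →
      Fermat.Agent.GZ.HCommTop.HKer p ({2, 3, ℓ} : Finset ℕ) r) :
    ¬ W.InZeroComponentAt A Q := by
  have h1 := Fermat.Agent.GZ.Unit.U2Plug.one_lt_addOrderOf_cusp hp hp'
  obtain ⟨r, hr, hrc⟩ := Nat.exists_prime_and_dvd (Nat.ne_of_gt h1)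
  exact s15_of_hker hp hp' W hΔ Q hQfix hQord h2Δ h2c₄ h2 h3Δ h3c₄ h3 hℓ hℓp hℓΔ hℓc₄ A hA hpNZ
    r hr hrc (hker r hr hrc)

end Fermat.Agent.GZ.Top.Final
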