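/-
GATE-Z (S15) / TOP, assembly 2 (helper20): **frozen S15 from the Selmer hypothesis ALONE.**

Everything closed on main is plugged into `s15_of_nodes_B` (variant B):

* (UNIT) `cuspPkgFinal`, U2 (`one_lt_addOrderOf_cusp`, `eisensteinNumerator_dvd_addOrderOf_cusp`);
* (HRED) helper42 `hRedGood`; (CUT) helper67; (DEG) helper45; S17; (HGAL) helper42;
* (MOD)  variant B: [MOD-beta] helper91 `betaOut_two`, [MOD-alpha] helper16 `pullHyp_three`,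
  `pullHyp_two` through helper24 `s15B_of_beta`;
* (HCOMM) helper67 `HCommFinal.hecke_comm`; (NAK) helper94; (GROW) `GZ/F`.

The ONLY binder left is `SelHyp p {2,3,ℓ} r` (`GZ/F/FOfNodes`) at ONE prime `r` dividing the order
of the cuspidal class — three interchangeable forms:

* `s15_of_selHyp_ex`  : `∃ r, r.Prime ∧ r ∣ addOrderOf (cuspPkgFinal hp).c ∧ SelHyp p {2,3,ℓ} r`;
* `s15_of_selHyp_num` : `∀ r, r.Prime → r ∣ eisensteinNumerator p → SelHyp p {2,3,ℓ} r`;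
* `s15_of_selHyp_all` : `∀ r, r.Prime → SelHyp p {2,3,ℓ} r`.
-/
import Fermat.Agent.GZ.Top.S15TopB
import Fermat.Agent.GZ.F.FOfNodes
import Fermat.Agent.GZ.Unit.Hecke
import Fermat.Agent.GZ.Unit.U2Plug
import Fermat.Agent.GZ.HRed.TopB
import Fermat.Agent.GZ.HGal.Main
import Fermat.Agent.GZ.HCommFinal
import Fermat.Agent.GZ.Mod.IntegratorPlugB
import Fermat.Agent.GZ.Mod.Inst.LevelDP.AuxFam
import Fermat.Agent.GZ.Tate.Out.Final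
import Fermat.Agent.S17

set_option autoImplicit false

noncomputable section

open AlgebraicCurve ModularCurve WeierstrassCurve IntermediateField
open scoped WeierstrassCurve.Affine

namespace Fermat.Agent.GZ.Top.Sel

open Fermat.Agent.GZ.Top Fermat.Agent.GZ.F Fermat.Agent.GZ.Unit Fermat.Agent.GZ.Unit.Hecke

/-- `p ∉ {2,3,5,7,13}` prime ⟹ `5 ≤ p`. -/
theorem five_le_of_notMem {p : ℕ} (hp : p.Prime) (hp' : p ∉ ({2, 3, 5, 7, 13} : Finset ℕ)) :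
    5 ≤ p := by
  have h2 := hp.two_le
  simp only [Finset.mem_insert, Finset.mem_singleton, not_or] at hp'
  obtain ⟨n2, n3, -, -, -⟩ := hp'
  by_contra hlt
  have : p = 4 := by omega
  rw [this] at hp
  exact absurd hp (by decide)

/-- **(F) from the Selmer hypothesis alone**: `FStmt (cuspPkgFinal hp) S` from `SelHyp p S r` at
one prime `r` dividing the order of the cuspidal class. -/
theorem fStmt_of_selHyp {p : ℕ} [NeZero p] (hp : p.Prime) (hp5 : 5 ≤ p) (S : Finset ℕ)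
    (r : ℕ) (hr : r.Prime) (hrc : r ∣ addOrderOf (cuspPkgFinal hp).c) (hsel : SelHyp p S r) :
    FStmt (cuspPkgFinal hp) S :=
  fStmt_of_nodes (cuspPkgFinal hp) S r hr hrc (Fermat.Agent.S17.result p hp hp5)
    (fun i _ hz => Fermat.Agent.GZ.HGal.heckeOperatorBar_mem_fixedPoints p i.1 hz)
    (Fermat.Agent.GZ.HCommFinal.hecke_comm p hp hp5 (fun i : GoodPrime p S => i.1)
      (fun i => i.2.2)) hsel

/-- **Frozen S15 from `SelHyp` at one prime `r ∣ ord c`** (statement verbatim from `Templates/S15`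
plus the two binders `hpNZ`, `hsel`). -/
theorem s15_of_selHyp_ex
    {p : ℕ} (hp : p.Prime) (hp' : p ∉ ({2, 3, 5, 7, 13} : Finset ℕ))
    (W : WeierstrassCurve ℤ) (hΔ : W.Δ ≠ 0)
    (Q : ((W.map (Int.castRingHom ℚ))⁄(AlgebraicClosure ℚ)).Point)
    (hQfix : ∀ σ : AlgebraicClosure ℚ ≃ₐ[ℚ] AlgebraicClosure ℚ, σ • Q = Q)
    (hQord : addOrderOf Q = p)
    (h2Δ : (2 : ℤ) ∣ W.Δ) (h2c₄ : ¬ (2 : ℤ) ∣ W.c₄)
    (h2 : ∀ A : ValuationSubring (AlgebraicClosure ℚ), A.LiesOverPrime 2 → ¬ W.InZeroComponentAt A Q)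
    (h3Δ : (3 : ℤ) ∣ W.Δ) (h3c₄ : ¬ (3 : ℤ) ∣ W.c₄)
    (h3 : ∀ A : ValuationSubring (AlgebraicClosure ℚ), A.LiesOverPrime 3 → ¬ W.InZeroComponentAt A Q)
    {ℓ : ℕ} (hℓ : ℓ.Prime) (hℓp : ℓ ≠ p) (hℓΔ : (ℓ : ℤ) ∣ W.Δ) (hℓc₄ : ¬ (ℓ : ℤ) ∣ W.c₄)
    (A : ValuationSubring (AlgebraicClosure ℚ)) (hA : A.LiesOverPrime ℓ)
    (hpNZ : NeZero p)
    (hsel : ∃ r : ℕ, r.Prime ∧ r ∣ addOrderOf (cuspPkgFinal hp).c ∧
      SelHyp p ({2, 3, ℓ} : Finset ℕ) r) :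
    ¬ W.InZeroComponentAt A Q := by
  have hp5 : 5 ≤ p := five_le_of_notMem hp hp'
  have hp2 : p ≠ 2 := by omega
  obtain ⟨r, hr, hrc, hselr⟩ := hsel
  exact Fermat.Agent.GZ.Mod.Integ.s15B_of_beta hp hp' W hΔ Q hQfix hQord h2Δ h2c₄ h2 h3Δ h3c₄ h3
    hℓ hℓp hℓΔ hℓc₄ A hA hpNZ
    (Fermat.Agent.GZ.Tate.Out.betaOut_two hp hp2 W hΔ Q hQfix hQord h2Δ h2c₄)
    (Fermat.Agent.GZ.Mod.Inst.LevelDP.pullHyp_three hp hp5)
    (Fermat.Agent.GZ.Mod.Inst.LevelDP.pullHyp_two hp hp5)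
    Fermat.Agent.GZ.HRed.hRedGood
    (fStmt_of_selHyp hp hp5 _ r hr hrc hselr)

/-- **Frozen S15 from `SelHyp` at the primes dividing the Eisenstein numerator.** -/
theorem s15_of_selHyp_num
    {p : ℕ} (hp : p.Prime) (hp' : p ∉ ({2, 3, 5, 7, 13} : Finset ℕ))
    (W : WeierstrassCurve ℤ) (hΔ : W.Δ ≠ 0)
    (Q : ((W.map (Int.castRingHom ℚ))⁄(AlgebraicClosure ℚ)).Point)
    (hQfix : ∀ σ : AlgebraicClosure ℚ ≃ₐ[ℚ] AlgebraicClosure ℚ, σ • Q = Q)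
    (hQord : addOrderOf Q = p)
    (h2Δ : (2 : ℤ) ∣ W.Δ) (h2c₄ : ¬ (2 : ℤ) ∣ W.c₄)
    (h2 : ∀ A : ValuationSubring (AlgebraicClosure ℚ), A.LiesOverPrime 2 → ¬ W.InZeroComponentAt A Q)
    (h3Δ : (3 : ℤ) ∣ W.Δ) (h3c₄ : ¬ (3 : ℤ) ∣ W.c₄)
    (h3 : ∀ A : ValuationSubring (AlgebraicClosure ℚ), A.LiesOverPrime 3 → ¬ W.InZeroComponentAt A Q)
    {ℓ : ℕ} (hℓ : ℓ.Prime) (hℓp : ℓ ≠ p) (hℓΔ : (ℓ : ℤ) ∣ W.Δ) (hℓc₄ : ¬ (ℓ : ℤ) ∣ W.c₄)
    (A : ValuationSubring (AlgebraicClosure ℚ)) (hA : A.LiesOverPrime ℓ)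
    (hsel : ∀ r : ℕ, r.Prime → r ∣ eisensteinNumerator p → r ≠ p →
      ∀ _ : NeZero p, SelHyp p ({2, 3, ℓ} : Finset ℕ) r) :
    ¬ W.InZeroComponentAt A Q := by
  have hpNZ : NeZero p := ⟨hp.ne_zero⟩
  have hp5 : 5 ≤ p := five_le_of_notMem hp hp'
  -- the Eisenstein numerator is `> 1` outside the genus-zero primes
  have hdvd : eisensteinNumerator p ∣ addOrderOf (cuspPkgFinal hp).c :=
    Fermat.Agent.GZ.Unit.U2Plug.eisensteinNumerator_dvd_addOrderOf_cusp hp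
  have hn1 : eisensteinNumerator p ≠ 1 := by
    intro h1
    unfold eisensteinNumerator at h1
    have hg : Nat.gcd (p - 1) 12 ∣ p - 1 := Nat.gcd_dvd_left _ _
    have hgpos : 0 < Nat.gcd (p - 1) 12 := Nat.gcd_pos_of_pos_right _ (by norm_num)
    have heq : p - 1 = Nat.gcd (p - 1) 12 := by
      have := Nat.div_mul_cancel hg
      rw [h1, one_mul] at this
      exact this.symm
    have h12 : p - 1 ∣ 12 := by
      rw [heq]
      exact Nat.gcd_dvd_right _ _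
    have hle : p - 1 ≤ 12 := Nat.le_of_dvd (by norm_num) h12
    simp only [Finset.mem_insert, Finset.mem_singleton, not_or] at hp'
    obtain ⟨n2, n3, n5, n7, n13⟩ := hp'
    have hp13 : p ≤ 13 := by omega
    interval_cases p <;> omega
  obtain ⟨r, hr, hrn⟩ := Nat.exists_prime_and_dvd hn1
  have hrp : r ≠ p := by
    rintro rfl
    have h1 : eisensteinNumerator r ∣ r - 1 := by
      unfold eisensteinNumerator
      exact Nat.div_dvd_of_dvd (Nat.gcd_dvd_left _ _)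
    have h2 : r ∣ r - 1 := hrn.trans h1
    have h3 : r ≤ r - 1 := Nat.le_of_dvd (by have := hr.two_le; omega) h2
    have := hr.two_le
    omega
  exact s15_of_selHyp_ex hp hp' W hΔ Q hQfix hQord h2Δ h2c₄ h2 h3Δ h3c₄ h3 hℓ hℓp hℓΔ hℓc₄ A hA
    hpNZ ⟨r, hr, hrn.trans hdvd, hsel r hr hrn hrp hpNZ⟩

/-- **Frozen S15 from `SelHyp` at every prime.** -/
theorem s15_of_selHyp_all
    {p : ℕ} (hp : p.Prime) (hp' : p ∉ ({2, 3, 5, 7, 13} : Finset ℕ))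
    (W : WeierstrassCurve ℤ) (hΔ : W.Δ ≠ 0)
    (Q : ((W.map (Int.castRingHom ℚ))⁄(AlgebraicClosure ℚ)).Point)
    (hQfix : ∀ σ : AlgebraicClosure ℚ ≃ₐ[ℚ] AlgebraicClosure ℚ, σ • Q = Q)
    (hQord : addOrderOf Q = p)
    (h2Δ : (2 : ℤ) ∣ W.Δ) (h2c₄ : ¬ (2 : ℤ) ∣ W.c₄)
    (h2 : ∀ A : ValuationSubring (AlgebraicClosure ℚ), A.LiesOverPrime 2 → ¬ W.InZeroComponentAt A Q)
    (h3Δ : (3 : ℤ) ∣ W.Δ) (h3c₄ : ¬ (3 : ℤ) ∣ W.c₄)
    (h3 : ∀ A : ValuationSubring (AlgebraicClosure ℚ), A.LiesOverPrime 3 → ¬ W.InZeroComponentAt A Q)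
    {ℓ : ℕ} (hℓ : ℓ.Prime) (hℓp : ℓ ≠ p) (hℓΔ : (ℓ : ℤ) ∣ W.Δ) (hℓc₄ : ¬ (ℓ : ℤ) ∣ W.c₄)
    (A : ValuationSubring (AlgebraicClosure ℚ)) (hA : A.LiesOverPrime ℓ)
    (hsel : ∀ r : ℕ, r.Prime → ∀ _ : NeZero p, SelHyp p ({2, 3, ℓ} : Finset ℕ) r) :
    ¬ W.InZeroComponentAt A Q :=
  s15_of_selHyp_num hp hp' W hΔ Q hQfix hQord h2Δ h2c₄ h2 h3Δ h3c₄ h3 hℓ hℓp hℓΔ hℓc₄ A hA
    (fun r hr _ _ inst => hsel r hr inst)

end Fermat.Agent.GZ.Top.Sel
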