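/-
GATE-Z (S15) / TOP, assembly (helper20): **frozen S15 from the binders that are still open.**

Everything closed on main is plugged into `s15_of_nodes_B` (variant B: `2`, `3` at the levels `3p`,
`2p`): `CuspPkg` (helper24/helper25 `cuspPkgFinal`), `HRedGood` (helper42 `hRedGood`), `Cut`
(helper67 `cut_of_binders`), the two relative degrees (helper45), S17, HGAL (helper42), UNIT-U2
(helper63), NAK (helper94) + GROW (`GZ/F`).  OPEN binders:

* `hMod`  : `ModuliB (cuspPkgFinal hp) W Q`                       (MOD, helper24/helper80/helper91 …);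
* `hcomm` : the `T_q` commute modulo torsion on `J₀(p)(ℚ)`         (HCOMM, helper67/helper36);
* `hsel`  : `SelHyp p {2,3,ℓ} r` for one prime `r ∣ ord c`         (KUMLOC + SB).
-/
import Fermat.Agent.GZ.Top.S15TopB
import Fermat.Agent.GZ.F.FOfNodes
import Fermat.Agent.GZ.Unit.Hecke
import Fermat.Agent.GZ.Unit.U2Plug
import Fermat.Agent.GZ.HRed.TopB
import Fermat.Agent.GZ.Cut.Plug
import Fermat.Agent.GZ.Deg.RelDeg
import Fermat.Agent.GZ.HGal.Main
import Fermat.Agent.S17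

set_option autoImplicit false

noncomputable section

open AlgebraicCurve ModularCurve WeierstrassCurve IntermediateField
open scoped WeierstrassCurve.Affine

namespace Fermat.Agent.GZ.Top

open Fermat.Agent.GZ.F Fermat.Agent.GZ.Unit Fermat.Agent.GZ.Unit.Hecke

/-- **Frozen S15 from the open binders** (statement verbatim from `Templates/S15`). -/
theorem s15_of_open_binders
    {p : ℕ} (hp : p.Prime) (hp' : p ∉ ({2, 3, 5, 7, 13} : Finset ℕ))
    (W : WeierstrassCurve ℤ) (hΔ : W.Δ ≠ 0)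
    (Q : ((W.map (Int.castRingHom ℚ))⁄(AlgebraicClosure ℚ)).Point)
    (hQfix : ∀ σ : AlgebraicClosure ℚ ≃ₐ[ℚ] AlgebraicClosure ℚ, σ • Q = Q)
    (hQord : addOrderOf Q = p)
    (h2Δ : (2 : ℤ) ∣ W.Δ) (h2c₄ : ¬ (2 : ℤ) ∣ W.c₄)
    (h2 : ∀ A : ValuationSubring (AlgebraicClosure ℚ), A.LiesOverPrime 2 → ¬ W.InZeroComponentAt A Q)
    (h3Δ : (3 : ℤ) ∣ W.Δ) (h3c₄ : ¬ (3 : ℤ) ∣ W.c₄)
    (h3 : ∀ A : ValuationSubring (AlgebraicClosure ℚ), A.LiesOverPrime 3 → ¬ W.InZeroComponentAt A Q)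
    {ℓ : ℕ} (hℓ : ℓ.Prime) (hℓp : ℓ ≠ p) (hℓΔ : (ℓ : ℤ) ∣ W.Δ) (hℓc₄ : ¬ (ℓ : ℤ) ∣ W.c₄)
    (A : ValuationSubring (AlgebraicClosure ℚ)) (hA : A.LiesOverPrime ℓ)
    -- the open binders
    (hpNZ : NeZero p)
    (hMod : ModuliB (cuspPkgFinal hp) W Q)
    (hcomm : ∀ i j : GoodPrime p ({2, 3, ℓ} : Finset ℕ), ∀ z ∈ MW p,
      IsOfFinAddOrder (heckeOperatorBar p i.1 (heckeOperatorBar p j.1 z) -
        heckeOperatorBar p j.1 (heckeOperatorBar p i.1 z)))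
    (hsel : ∃ r : ℕ, r.Prime ∧ r ∣ addOrderOf (cuspPkgFinal hp).c ∧
      SelHyp p ({2, 3, ℓ} : Finset ℕ) r) :
    ¬ W.InZeroComponentAt A Q := by
  have hp5 : 5 ≤ p := by
    have h2 := hp.two_le
    simp only [Finset.mem_insert, Finset.mem_singleton, not_or] at hp'
    obtain ⟨n2, n3, -, -, -⟩ := hp'
    by_contra hlt
    have : p = 4 := by omega
    rw [this] at hp
    exact absurd hp (by decide)
  have hp2 : p ≠ 2 := by omega
  have hp3 : p ≠ 3 := by omega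
  obtain ⟨r, hr, hrc, hselr⟩ := hsel
  have hF : FStmt (cuspPkgFinal hp) ({2, 3, ℓ} : Finset ℕ) :=
    fStmt_of_nodes (cuspPkgFinal hp) _ r hr hrc (Fermat.Agent.S17.result p hp hp5)
      (fun i z hz => Fermat.Agent.GZ.HGal.heckeOperatorBar_mem_fixedPoints p i.1 hz) hcomm hselr
  have hdeg := Fermat.Agent.GZ.Deg.relfinrank_three_two hp hp2 hp3
  exact s15_of_nodes_B hp hp' W hΔ Q hQfix hQord h2Δ h2c₄ h2 h3Δ h3c₄ h3 hℓ hℓp hℓΔ hℓc₄ A hA
    hpNZ (cuspPkgFinal hp) Fermat.Agent.GZ.HRed.hRedGood hMod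
    (Fermat.Agent.GZ.Cut.cut_of_binders hp W hΔ Q hQfix hQord) hF hdeg.1 hdeg.2

end Fermat.Agent.GZ.Top
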