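/-
GATE-Z (S15) / TOP, assembly 2 (helper16): **frozen S15 from the Selmer bound `SelHyp` ALONE.**

helper20's `s15_of_open_binders` (`GZ/Top/S15Open.lean`) had three open binders; two are now theorems
on main:

* `hMod`  = (MOD): [MOD-beta] helper91 `Tate.Out.betaOut_two` + [MOD-alpha] at the levels `p`, `3p`,
  `2p` (helper24 integrator, helper48 `AlphaPull`, helper16 `LevelDP.famHyp`) — packaged in
  `LevelDP.s15B_of_beta_F`;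
* `hcomm` = (HCOMM): helper67 `HCommFinal.hecke_comm`.

So: `s15_of_sel` (one prime `r ∣ ord c` with `SelHyp p {2,3,ℓ} r`), and `s15_of_sel_forall`
(`SelHyp` for every prime divisor of `ord c`; the order is `> 1` by helper63's U2).
-/
import Fermat.Agent.GZ.Top.S15Open
import Fermat.Agent.GZ.HCommFinal
import Fermat.Agent.GZ.Tate.Out.Final
import Fermat.Agent.GZ.Mod.Inst.LevelDP.FamPlug

set_option autoImplicit false

noncomputable section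

open AlgebraicCurve ModularCurve WeierstrassCurve IntermediateField
open scoped WeierstrassCurve.Affine

namespace Fermat.Agent.GZ.Top

open Fermat.Agent.GZ.F Fermat.Agent.GZ.Unit Fermat.Agent.GZ.Unit.Hecke

/-- **Frozen S15 from ONE Selmer bound** (statement verbatim from `Templates/S15`, plus `hsel`). -/
theorem s15_of_sel
    {p : ℕ} (hp : p.Prime) (hp' : p ∉ ({2, 3, 5, 7, 13} : Finset ℕ))
    (W : WeierstrassCurve ℤ) (hΔ : W.Δ ≠ 0)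
    (Q : ((W.map (Int.castRingHom ℚ))⁄(AlgebraicClosure ℚ)).Point)
    (hQfix : ∀ σ : AlgebraicClosure ℚ ≃ₐ[ℚ] AlgebraicClosure ℚ, σ • Q = Q)
    (hQord : addOrderOf Q = p)
    (h2Δ : (2 : ℤ) ∣ W.Δ) (h2c₄ : ¬ (2 : ℤ) ∣ W.c₄)
    (h2 : ∀ A : ValuationSubring (AlgebraicClosure ℚ), A.LiesOverPrime 2 → ¬ W.InZeroComponentAt A Q)
    (h3Δ : (3 : ℤ) ∣ W.Δ) (h3c₄ : ¬ (3 : ℤ) ∣ W.c₄)
    (h3 : ∀ A : ValuationSubring (AlgebraicClosure ℚ), A.LiesOverPrime 3 → ¬ W.InZeroComponentAt A Q)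
    {ℓ : ℕ} (hℓ : ℓ.Prime) (hℓp : ℓ ≠ p) (hℓΔ : (ℓ : ℤ) ∣ W.Δ) (hℓc₄ : ¬ (ℓ : ℤ) ∣ W.c₄)
    (A : ValuationSubring (AlgebraicClosure ℚ)) (hA : A.LiesOverPrime ℓ)
    -- the open binder
    (hsel : haveI : NeZero p := ⟨hp.ne_zero⟩
      ∃ r : ℕ, r.Prime ∧ r ∣ addOrderOf (cuspPkgFinal hp).c ∧
        SelHyp p ({2, 3, ℓ} : Finset ℕ) r) :
    ¬ W.InZeroComponentAt A Q := by
  have hpNZ : NeZero p := ⟨hp.ne_zero⟩
  have hp5 : 5 ≤ p := by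
    have h2 := hp.two_le
    simp only [Finset.mem_insert, Finset.mem_singleton, not_or] at hp'
    obtain ⟨n2, n3, -, -, -⟩ := hp'
    by_contra hlt
    have : p = 4 := by omega
    rw [this] at hp
    exact absurd hp (by decide)
  have hp2 : p ≠ 2 := by omega
  obtain ⟨r, hr, hrc, hselr⟩ := hsel
  have hcomm : ∀ i j : GoodPrime p ({2, 3, ℓ} : Finset ℕ), ∀ z ∈ MW p,
      IsOfFinAddOrder (heckeOperatorBar p i.1 (heckeOperatorBar p j.1 z) -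
        heckeOperatorBar p j.1 (heckeOperatorBar p i.1 z)) :=
    Fermat.Agent.GZ.HCommFinal.hecke_comm p hp hp5
      (fun i : GoodPrime p ({2, 3, ℓ} : Finset ℕ) => i.1) (fun i => i.2.2)
  have hF : FStmt (cuspPkgFinal hp) ({2, 3, ℓ} : Finset ℕ) :=
    fStmt_of_nodes (cuspPkgFinal hp) _ r hr hrc (Fermat.Agent.S17.result p hp hp5)
      (fun i z hz => Fermat.Agent.GZ.HGal.heckeOperatorBar_mem_fixedPoints p i.1 hz) hcomm hselr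
  exact Fermat.Agent.GZ.Mod.Inst.LevelDP.s15B_of_beta_F hp hp' W hΔ Q hQfix hQord h2Δ h2c₄ h2
    h3Δ h3c₄ h3 hℓ hℓp hℓΔ hℓc₄ A hA hpNZ
    (Fermat.Agent.GZ.Tate.Out.betaOut_two hp hp2 W hΔ Q hQfix hQord h2Δ h2c₄) hF

/-- **Frozen S15 from the Selmer bounds at the prime divisors of the order of the cuspidal
class** (which is `> 1`: U2). -/
theorem s15_of_sel_forall
    {p : ℕ} (hp : p.Prime) (hp' : p ∉ ({2, 3, 5, 7, 13} : Finset ℕ))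
    (W : WeierstrassCurve ℤ) (hΔ : W.Δ ≠ 0)
    (Q : ((W.map (Int.castRingHom ℚ))⁄(AlgebraicClosure ℚ)).Point)
    (hQfix : ∀ σ : AlgebraicClosure ℚ ≃ₐ[ℚ] AlgebraicClosure ℚ, σ • Q = Q)
    (hQord : addOrderOf Q = p)
    (h2Δ : (2 : ℤ) ∣ W.Δ) (h2c₄ : ¬ (2 : ℤ) ∣ W.c₄)
    (h2 : ∀ A : ValuationSubring (AlgebraicClosure ℚ), A.LiesOverPrime 2 → ¬ W.InZeroComponentAt A Q)
    (h3Δ : (3 : ℤ) ∣ W.Δ) (h3c₄ : ¬ (3 : ℤ) ∣ W.c₄)
    (h3 : ∀ A : ValuationSubring (AlgebraicClosure ℚ), A.LiesOverPrime 3 → ¬ W.InZeroComponentAt A Q)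
    {ℓ : ℕ} (hℓ : ℓ.Prime) (hℓp : ℓ ≠ p) (hℓΔ : (ℓ : ℤ) ∣ W.Δ) (hℓc₄ : ¬ (ℓ : ℤ) ∣ W.c₄)
    (A : ValuationSubring (AlgebraicClosure ℚ)) (hA : A.LiesOverPrime ℓ)
    (hsel : haveI : NeZero p := ⟨hp.ne_zero⟩
      ∀ r : ℕ, r.Prime → r ∣ addOrderOf (cuspPkgFinal hp).c →
        SelHyp p ({2, 3, ℓ} : Finset ℕ) r) :
    ¬ W.InZeroComponentAt A Q := by
  have hpNZ : NeZero p := ⟨hp.ne_zero⟩
  have h1 : 1 < addOrderOf (cuspPkgFinal hp).c :=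
    Fermat.Agent.GZ.Unit.U2Plug.one_lt_addOrderOf_cusp hp hp'
  have hne : addOrderOf (cuspPkgFinal hp).c ≠ 1 := by omega
  exact s15_of_sel hp hp' W hΔ Q hQfix hQord h2Δ h2c₄ h2 h3Δ h3c₄ h3 hℓ hℓp hℓΔ hℓc₄ A hA
    ⟨_, Nat.minFac_prime hne, Nat.minFac_dvd _, hsel _ (Nat.minFac_prime hne) (Nat.minFac_dvd _)⟩

end Fermat.Agent.GZ.Top
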